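import Mathlib.NumberTheory.LegendreSymbol.QuadraticReciprocity
import Mathlib.Algebra.Squarefree.Basic
import Mathlib.Tactic.LinearCombination

/-!
# The classes of Iskra's descent

Let `n` be a product of distinct primes `≡ 3 (mod 8)`, each a square modulo the earlier ones. If
`a α², b β² = a α² - n e², c γ² = a α² + n e²` with `a, b, c` squarefree of square product and `b`
odd then at the first prime dividing one of `a, b, c` either `2` or `-1` would be a square. So
`a = b = 1`.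
-/

set_option autoImplicit false
set_option linter.style.haveILetI false

namespace FA.Iskra

/-- Two of three squarefree numbers with square product share each prime. -/
theorem dvd_of_square {a b c q : ℕ} (ha : Squarefree a) (hq : q.Prime) (hqa : q ∣ a)
    (h : IsSquare (a * b * c)) : q ∣ b ∨ q ∣ c := by
  obtain ⟨s, hs⟩ := h
  obtain ⟨a', rfl⟩ := hqa
  have ha' : ¬ q ∣ a' := fun hd => hq.ne_one (Nat.isUnit_iff.1 (ha q (mul_dvd_mul_left q hd)))
  have hqs : q ∣ s := (hq.dvd_mul.1 (⟨a' * b * c, by rw [← hs]; ring⟩ : q ∣ s * s)).elim id id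
  obtain ⟨t, rfl⟩ := hqs
  have h1 : a' * b * c = q * (t * t) :=
    Nat.eq_of_mul_eq_mul_left hq.pos (by linear_combination hs)
  rcases hq.dvd_mul.1 (⟨t * t, h1⟩ : q ∣ a' * b * c) with h | h
  · exact Or.inl ((hq.dvd_mul.1 h).resolve_left ha')
  · exact Or.inr h

/-- No prime divides all three. -/
theorem not_dvd_three {a b c q : ℕ} (ha : Squarefree a) (hb : Squarefree b) (hc : Squarefree c)
    (hq : q.Prime) (h : IsSquare (a * b * c)) : ¬ (q ∣ a ∧ q ∣ b ∧ q ∣ c) := by
  rintro ⟨⟨a', rfl⟩, ⟨b', rfl⟩, ⟨c', rfl⟩⟩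
  have hn : ∀ {m : ℕ}, Squarefree (q * m) → ¬ q ∣ m := fun hm hd =>
    hq.ne_one (Nat.isUnit_iff.1 (hm q (mul_dvd_mul_left q hd)))
  obtain ⟨s, hs⟩ := h
  obtain ⟨t, rfl⟩ : q ∣ s :=
    (hq.dvd_mul.1 (⟨q * q * (a' * b' * c'), by rw [← hs]; ring⟩ : q ∣ s * s)).elim id id
  have h1 : q * (a' * b' * c') = t * t :=
    Nat.eq_of_mul_eq_mul_left (Nat.mul_pos hq.pos hq.pos) (by linear_combination hs)
  obtain ⟨u, rfl⟩ : q ∣ t := (hq.dvd_mul.1 (⟨a' * b' * c', h1.symm⟩ : q ∣ t * t)).elim id id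
  have h2 : a' * b' * c' = q * (u * u) :=
    Nat.eq_of_mul_eq_mul_left hq.pos (by linear_combination h1)
  rcases hq.dvd_mul.1 (⟨u * u, h2⟩ : q ∣ a' * b' * c') with h | h
  · exact (hq.dvd_mul.1 h).elim (hn ha) (hn hb)
  · exact hn hc h

/-- A natural number all of whose prime factors are squares modulo `p` is a square modulo `p`. -/
theorem isSquare_cast {p : ℕ} (m : ℕ)
    (h : ∀ q : ℕ, q.Prime → q ∣ m → IsSquare (q : ZMod p)) : IsSquare (m : ZMod p) := by
  induction m using Nat.recOnMul with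
  | zero => rw [Nat.cast_zero]; exact IsSquare.zero
  | one => rw [Nat.cast_one]; exact IsSquare.one
  | prime q hq => exact h q hq dvd_rfl
  | mul a b ha hb =>
    rw [Nat.cast_mul]
    exact (ha fun q hq hqa => h q hq (hqa.mul_right b)).mul
      (hb fun q hq hqb => h q hq (hqb.mul_left a))

/-- Iskra's primes: `≡ 3 (mod 8)`, each a square modulo the earlier ones. -/
structure Primes {k : ℕ} (P : Fin k → ℕ) : Prop where
  prime : ∀ i, (P i).Prime
  mod_eight : ∀ i, P i % 8 = 3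
  injective : Function.Injective P
  square : ∀ i j, i < j → IsSquare (P j : ZMod (P i))

theorem Primes.odd_prod {k : ℕ} {P : Fin k → ℕ} (hP : Primes P) : Odd (∏ i, P i) := by
  rw [Nat.odd_iff, Finset.prod_nat_mod,
    Finset.prod_congr rfl fun i _ => show P i % 2 = 1 by have := hP.mod_eight i; omega]
  simp

theorem Primes.squarefree_prod {k : ℕ} {P : Fin k → ℕ} (hP : Primes P) :
    Squarefree (∏ i, P i) := by
  refine Finset.squarefree_prod_of_pairwise_isCoprime (fun i _ j _ hij => ?_)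
    fun i _ => (hP.prime i).squarefree
  exact Nat.coprime_iff_isRelPrime.1
    ((Nat.coprime_primes (hP.prime i) (hP.prime j)).2 fun h => hij (hP.injective h))

/-- **The classes are trivial.** -/
theorem eq_one {k : ℕ} {P : Fin k → ℕ} (hP : Primes P) {a b c : ℕ} (ha : Squarefree a)
    (hb : Squarefree b) (hc : Squarefree c) (habc : IsSquare (a * b * c)) (hb2 : ¬ 2 ∣ b)
    {u v w e : ℤ} (hB : (b : ℤ) * v ^ 2 = a * u ^ 2 - (∏ i, P i : ℕ) * e ^ 2)
    (hC : (c : ℤ) * w ^ 2 = a * u ^ 2 + (∏ i, P i : ℕ) * e ^ 2)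
    (hco : IsCoprime ((a : ℤ) * u ^ 2) e) : a = 1 ∧ b = 1 := by
  set N : ℕ := ∏ i, P i with hN
  have hodd : Odd N := hP.odd_prod
  have hab' : IsSquare (b * a * c) := by rwa [mul_comm b a]
  have hca' : IsSquare (c * a * b) := by rwa [mul_assoc, mul_comm c]
  -- the primes of the classes
  have mem : ∀ q : ℕ, q.Prime → q ∣ a ∨ q ∣ b ∨ q ∣ c → ∃ j, q = P j := by
    intro q hq hd
    have hqI : Prime (q : ℤ) := Nat.prime_iff_prime_int.1 hq
    have he : ∀ {z : ℤ}, (q : ℤ) ∣ z → (q : ℤ) ∣ e → z = (a : ℤ) * u ^ 2 → False :=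
      fun h1 h2 h3 => hqI.not_isUnit (hco.isUnit_of_dvd' (h3 ▸ h1) h2)
    have two : (q ∣ a ∧ q ∣ b) ∨ (q ∣ a ∧ q ∣ c) ∨ (q ∣ b ∧ q ∣ c) := by
      rcases hd with h | h | h
      · exact (dvd_of_square ha hq h habc).elim (fun h' => Or.inl ⟨h, h'⟩)
          fun h' => Or.inr (Or.inl ⟨h, h'⟩)
      · exact (dvd_of_square hb hq h hab').elim (fun h' => Or.inl ⟨h', h⟩)
          fun h' => Or.inr (Or.inr ⟨h, h'⟩)
      · exact (dvd_of_square hc hq h hca').elim (fun h' => Or.inr (Or.inl ⟨h', h⟩))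
          fun h' => Or.inr (Or.inr ⟨h', h⟩)
    have hcast : ∀ {m : ℕ} {z : ℤ}, q ∣ m → (q : ℤ) ∣ (m : ℤ) * z := fun h =>
      dvd_mul_of_dvd_left (Int.natCast_dvd_natCast.2 h) _
    have hqN : q ∣ N := by
      have key : (q : ℤ) ∣ (a : ℤ) * u ^ 2 → (q : ℤ) ∣ (N : ℤ) * e ^ 2 → q ∣ N := fun h1 h2 =>
        Int.natCast_dvd_natCast.1 ((hqI.dvd_or_dvd h2).resolve_right fun h =>
          he h1 (hqI.dvd_of_dvd_pow h) rfl)
      rcases two with ⟨h1, h2⟩ | ⟨h1, h2⟩ | ⟨h1, h2⟩
      · refine key (hcast h1) ?_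
        rw [show (N : ℤ) * e ^ 2 = (a : ℤ) * u ^ 2 - (b : ℤ) * v ^ 2 by linear_combination hB]
        exact dvd_sub (hcast h1) (hcast h2)
      · refine key (hcast h1) ?_
        rw [show (N : ℤ) * e ^ 2 = (c : ℤ) * w ^ 2 - (a : ℤ) * u ^ 2 by linear_combination -hC]
        exact dvd_sub (hcast h2) (hcast h1)
      · have hq2 : ¬ (q : ℤ) ∣ 2 := fun h => hb2
          ((Nat.prime_dvd_prime_iff_eq hq Nat.prime_two).1 (Int.natCast_dvd_natCast.1 h) ▸ h1)
        refine key ((hqI.dvd_or_dvd ?_).resolve_left hq2) ((hqI.dvd_or_dvd ?_).resolve_left hq2)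
        · rw [show 2 * ((a : ℤ) * u ^ 2) = (b : ℤ) * v ^ 2 + (c : ℤ) * w ^ 2 by
            linear_combination -hB - hC]
          exact dvd_add (hcast h1) (hcast h2)
        · rw [show 2 * ((N : ℤ) * e ^ 2) = (c : ℤ) * w ^ 2 - (b : ℤ) * v ^ 2 by
            linear_combination hB - hC]
          exact dvd_sub (hcast h2) (hcast h1)
    obtain ⟨j, -, hj⟩ := (hq.prime.dvd_finsetProd_iff _).1 hqN
    exact ⟨j, (Nat.prime_dvd_prime_iff_eq hq (hP.prime j)).1 hj⟩
  -- none of them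
  have none : ∀ m : ℕ, ∀ i : Fin k, (i : ℕ) = m → ¬ (P i ∣ a ∨ P i ∣ b ∨ P i ∣ c) := by
    intro m
    induction m using Nat.strong_induction_on with
    | _ m ih =>
    intro i hi hd
    haveI := Fact.mk (hP.prime i)
    have hp := hP.prime i
    have h8 := hP.mod_eight i
    have h2 : ¬ IsSquare (2 : ZMod (P i)) := fun h => by
      have := (ZMod.exists_sq_eq_two_iff (by omega)).1 h
      omega
    have hneg : ¬ IsSquare (-1 : ZMod (P i)) := fun h =>
      ZMod.exists_sq_eq_neg_one_iff.1 h (by omega)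
    have hquot : ∀ {d : ℕ}, Squarefree d → (∀ q, q ∣ d → q ∣ a ∨ q ∣ b ∨ q ∣ c) → P i ∣ d →
        ∃ r : ZMod (P i), ∃ d' : ℕ, d = P i * d' ∧ (d' : ZMod (P i)) = r * r ∧ r ≠ 0 := by
      intro d hd hall hpd
      obtain ⟨d', rfl⟩ := hpd
      have hndvd : ¬ P i ∣ d' := fun h =>
        hp.ne_one (Nat.isUnit_iff.1 (hd _ (mul_dvd_mul_left _ h)))
      obtain ⟨r, hr⟩ := isSquare_cast (p := P i) d' fun q hq hqd => by
        obtain ⟨j, rfl⟩ := mem q hq (hall q (hqd.mul_left _))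
        rcases lt_trichotomy i j with h | h | h
        · exact hP.square i j h
        · exact absurd (h ▸ hqd) hndvd
        · exact absurd (hall _ (hqd.mul_left _)) (ih j (hi ▸ h) j rfl)
      refine ⟨r, d', rfl, hr, fun h0 => hndvd ((ZMod.natCast_eq_zero_iff _ _).1 ?_)⟩
      rw [hr, h0, zero_mul]
    obtain ⟨N', hN'⟩ : P i ∣ N := Finset.dvd_prod_of_mem P (Finset.mem_univ i)
    have hN'0 : (N' : ZMod (P i)) ≠ 0 := fun h => hp.ne_one (Nat.isUnit_iff.1
      (hP.squarefree_prod (P i) (by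
        rw [← hN, hN']
        exact mul_dvd_mul_left _ ((ZMod.natCast_eq_zero_iff _ _).1 h))))
    have hpI : Prime ((P i : ℕ) : ℤ) := Nat.prime_iff_prime_int.1 hp
    have hp0 : ((P i : ℕ) : ℤ) ≠ 0 := hpI.ne_zero
    -- the reduced equations
    have reduce : ∀ {s t : ℤ}, ((P i : ℕ) : ℤ) * s = ((P i : ℕ) : ℤ) * t →
        (s : ZMod (P i)) = (t : ZMod (P i)) := fun h => by rw [mul_left_cancel₀ hp0 h]
    have he0 : P i ∣ a ∨ (P i ∣ b ∧ P i ∣ c) → (e : ZMod (P i)) ≠ 0 := by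
      intro h h0
      have hqe := (ZMod.intCast_zmod_eq_zero_iff_dvd e (P i)).1 h0
      refine hpI.not_isUnit (hco.isUnit_of_dvd' ?_ hqe)
      rcases h with h | ⟨h, -⟩
      · exact dvd_mul_of_dvd_left (Int.natCast_dvd_natCast.2 h) _
      · rw [show (a : ℤ) * u ^ 2 = (b : ℤ) * v ^ 2 + (N : ℤ) * e ^ 2 by linear_combination -hB]
        exact dvd_add (dvd_mul_of_dvd_left (Int.natCast_dvd_natCast.2 h) _)
          (dvd_mul_of_dvd_right (dvd_pow hqe two_ne_zero) _)
    by_cases hpa : P i ∣ a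
    · obtain ⟨r, a', ha', hr, hr0⟩ := hquot ha (fun q h => Or.inl h) hpa
      have he := he0 (Or.inl hpa)
      rcases dvd_of_square ha hp hpa habc with hpb | hpc
      · obtain ⟨s, b', hb', hs, -⟩ := hquot hb (fun q h => Or.inr (Or.inl h)) hpb
        have hpc : ¬ P i ∣ c := fun h => not_dvd_three ha hb hc hp habc ⟨hpa, hpb, h⟩
        obtain ⟨w', rfl⟩ : ((P i : ℕ) : ℤ) ∣ w := by
          refine hpI.dvd_of_dvd_pow (n := 2) ((hpI.dvd_or_dvd ?_).resolve_left fun h => hpc
            (Int.natCast_dvd_natCast.1 h))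
          exact ⟨a' * u ^ 2 + N' * e ^ 2, by rw [hC, hN', ha']; push_cast; ring⟩
        have e1 := reduce (s := (b' : ℤ) * v ^ 2) (t := a' * u ^ 2 - N' * e ^ 2)
          (by rw [hN', ha', hb'] at hB; push_cast at hB; linear_combination hB)
        have e2 := reduce (s := (a' : ℤ) * u ^ 2 + N' * e ^ 2)
          (t := ((P i : ℕ) : ℤ) * (c * w' ^ 2))
          (by rw [hN', ha'] at hC; push_cast at hC; linear_combination -hC)
        push_cast at e1 e2
        rw [ZMod.natCast_self, zero_mul] at e2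
        rw [hr] at e1 e2
        rw [hs] at e1
        have hu : (u : ZMod (P i)) ≠ 0 := fun h => mul_ne_zero hN'0 (pow_ne_zero 2 he) (by
          rw [h] at e2; linear_combination e2)
        refine h2 ⟨s * v / (r * u), ?_⟩
        field_simp
        linear_combination -e1 + e2
      · obtain ⟨s, c', hc', hs, -⟩ := hquot hc (fun q h => Or.inr (Or.inr h)) hpc
        have hpb : ¬ P i ∣ b := fun h => not_dvd_three ha hb hc hp habc ⟨hpa, h, hpc⟩
        obtain ⟨v', rfl⟩ : ((P i : ℕ) : ℤ) ∣ v := by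
          refine hpI.dvd_of_dvd_pow (n := 2) ((hpI.dvd_or_dvd ?_).resolve_left fun h => hpb
            (Int.natCast_dvd_natCast.1 h))
          exact ⟨a' * u ^ 2 - N' * e ^ 2, by rw [hB, hN', ha']; push_cast; ring⟩
        have e1 := reduce (s := (c' : ℤ) * w ^ 2) (t := a' * u ^ 2 + N' * e ^ 2)
          (by rw [hN', ha', hc'] at hC; push_cast at hC; linear_combination hC)
        have e2 := reduce (s := (a' : ℤ) * u ^ 2 - N' * e ^ 2)
          (t := ((P i : ℕ) : ℤ) * (b * v' ^ 2))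
          (by rw [hN', ha'] at hB; push_cast at hB; linear_combination -hB)
        push_cast at e1 e2
        rw [ZMod.natCast_self, zero_mul] at e2
        rw [hr] at e1 e2
        rw [hs] at e1
        have hu : (u : ZMod (P i)) ≠ 0 := fun h => mul_ne_zero hN'0 (pow_ne_zero 2 he) (by
          rw [h] at e2; linear_combination -e2)
        refine h2 ⟨s * w / (r * u), ?_⟩
        field_simp
        linear_combination -e1 + e2
    obtain ⟨hpb, hpc⟩ : P i ∣ b ∧ P i ∣ c := by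
      rcases hd.resolve_left hpa with h | h
      · exact ⟨h, (dvd_of_square hb hp h hab').resolve_left hpa⟩
      · exact ⟨(dvd_of_square hc hp h hca').resolve_left hpa, h⟩
    obtain ⟨r, b', hb', hr, hr0⟩ := hquot hb (fun q h => Or.inr (Or.inl h)) hpb
    obtain ⟨s, c', hc', hs, -⟩ := hquot hc (fun q h => Or.inr (Or.inr h)) hpc
    have he := he0 (Or.inr ⟨hpb, hpc⟩)
    obtain ⟨u', rfl⟩ : ((P i : ℕ) : ℤ) ∣ u := by
      refine hpI.dvd_of_dvd_pow (n := 2) ((hpI.dvd_or_dvd ?_).resolve_left fun h => hpa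
        (Int.natCast_dvd_natCast.1 h))
      exact ⟨b' * v ^ 2 + N' * e ^ 2, by
        rw [hb', hN'] at hB; push_cast at hB; linear_combination -hB⟩
    have e1 := reduce (s := (b' : ℤ) * v ^ 2 + N' * e ^ 2)
      (t := ((P i : ℕ) : ℤ) * (a * u' ^ 2))
      (by rw [hN', hb'] at hB; push_cast at hB; linear_combination hB)
    have e2 := reduce (s := (c' : ℤ) * w ^ 2 - N' * e ^ 2)
      (t := ((P i : ℕ) : ℤ) * (a * u' ^ 2))
      (by rw [hN', hc'] at hC; push_cast at hC; linear_combination hC)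
    push_cast at e1 e2
    rw [ZMod.natCast_self, zero_mul] at e1 e2
    rw [hr] at e1
    rw [hs] at e2
    have hv : (v : ZMod (P i)) ≠ 0 := fun h => mul_ne_zero hN'0 (pow_ne_zero 2 he) (by
      rw [h] at e1; linear_combination e1)
    refine hneg ⟨s * w / (r * v), ?_⟩
    field_simp
    linear_combination -e1 - e2
  constructor <;> refine Nat.eq_one_iff_not_exists_prime_dvd.2 fun q hq hd => ?_
  · obtain ⟨j, rfl⟩ := mem q hq (Or.inl hd)
    exact none j j rfl (Or.inl hd)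
  · obtain ⟨j, rfl⟩ := mem q hq (Or.inr (Or.inl hd))
    exact none j j rfl (Or.inr (Or.inl hd))

end FA.Iskra
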