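import Mathlib.FieldTheory.IntermediateField.Adjoin.Basic
import Mathlib.NumberTheory.Padics.PadicVal.Basic
import Mathlib.Analysis.Real.Sqrt
import Mathlib.Tactic.LinearCombination
import Mathlib.Tactic.FieldSimp

/-!
# Congruent number curves over real multiquadratic fields

Let `p₀, p₁, …` be distinct odd primes such that no product `n` of finitely many of them is a
congruent number. Then over every `ℚ(√p₀, …, √p_{k-1})` the curves `y² = x³ - n² x`, for `n` a
product of the other primes, have only the points with `y = 0`: the line through a point and its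
conjugate meets the curve again in a point over the smaller field, the line through a point and the
negative of its conjugate in a point of the twist by `p`, and both meetings being points with
`y = 0` makes `2 n` or `2 n p` a square.
-/

set_option autoImplicit false
set_option linter.style.haveILetI false

noncomputable section

open IntermediateField (adjoin adjoin_induction subset_adjoin mem_bot adjoin_empty)

namespace FA.IskraField

/-- Distinct odd primes. -/
structure PrimeSeq (P : ℕ → ℕ) : Prop where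
  prime : ∀ i, (P i).Prime
  odd : ∀ i, Odd (P i)
  injective : Function.Injective P

/-- The field generated by the square roots of the first `k` primes. -/
def sqrtField (P : ℕ → ℕ) (k : ℕ) : IntermediateField ℚ ℝ :=
  adjoin ℚ ((fun i => Real.sqrt (P i)) '' Set.Iio k)

variable {P : ℕ → ℕ} {k : ℕ}

theorem sqrtField_mono {l : ℕ} (h : k ≤ l) : sqrtField P k ≤ sqrtField P l :=
  IntermediateField.adjoin.mono _ _ _ (Set.image_mono (Set.Iio_subset_Iio h))

theorem sqrt_mem (P : ℕ → ℕ) (k : ℕ) : Real.sqrt (P k) ∈ sqrtField P (k + 1) :=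
  subset_adjoin _ _ ⟨k, Nat.lt_succ_self k, rfl⟩

theorem sq_sqrt_natCast (m : ℕ) : Real.sqrt (m : ℝ) ^ 2 = m :=
  Real.sq_sqrt (Nat.cast_nonneg m)

theorem sqrtField_zero (P : ℕ → ℕ) : sqrtField P 0 = ⊥ := by
  simp [sqrtField, Set.Iio, adjoin_empty]

/-- The elements of the next field. -/
theorem exists_coords {x : ℝ} (hx : x ∈ sqrtField P (k + 1)) :
    ∃ a ∈ sqrtField P k, ∃ b ∈ sqrtField P k, x = a + b * Real.sqrt (P k) := by
  set s := Real.sqrt (P k : ℝ) with hs
  have hs2 : s ^ 2 = (P k : ℝ) := sq_sqrt_natCast _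
  have hp : (P k : ℝ) ∈ sqrtField P k := natCast_mem _ _
  unfold sqrtField at hx
  induction hx using adjoin_induction with
  | mem y hy =>
    obtain ⟨i, hi, rfl⟩ := hy
    rcases Nat.lt_succ_iff_lt_or_eq.1 hi with h | rfl
    · exact ⟨_, subset_adjoin _ _ ⟨i, h, rfl⟩, 0, zero_mem _, by simp⟩
    · exact ⟨0, zero_mem _, 1, one_mem _, by simp [hs]⟩
  | algebraMap q => exact ⟨_, algebraMap_mem _ q, 0, zero_mem _, by simp⟩
  | add y z _ _ hy hz =>
    obtain ⟨a, ha, b, hb, rfl⟩ := hy
    obtain ⟨c, hc, d, hd, rfl⟩ := hz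
    exact ⟨a + c, add_mem ha hc, b + d, add_mem hb hd, by ring⟩
  | inv y _ hy =>
    obtain ⟨a, ha, b, hb, rfl⟩ := hy
    by_cases hb0 : b = 0
    · exact ⟨a⁻¹, inv_mem ha, 0, zero_mem _, by simp [hb0]⟩
    by_cases hd : a ^ 2 - b ^ 2 * (P k : ℝ) = 0
    · have hs' : s = a / b ∨ s = -(a / b) := sq_eq_sq_iff_eq_or_eq_neg.1 (by
        rw [hs2, div_pow, eq_div_iff (pow_ne_zero 2 hb0)]
        linear_combination -hd)
      have hm : a + b * s ∈ sqrtField P k :=
        add_mem ha (mul_mem hb (hs'.elim (fun h => h ▸ div_mem ha hb)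
          fun h => h ▸ neg_mem (div_mem ha hb)))
      exact ⟨_, inv_mem hm, 0, zero_mem _, by simp⟩
    refine ⟨a / (a ^ 2 - b ^ 2 * P k), div_mem ha (sub_mem (pow_mem ha 2)
      (mul_mem (pow_mem hb 2) hp)), -b / (a ^ 2 - b ^ 2 * P k), div_mem (neg_mem hb)
      (sub_mem (pow_mem ha 2) (mul_mem (pow_mem hb 2) hp)), inv_eq_of_mul_eq_one_right ?_⟩
    field_simp
    linear_combination -b ^ 2 * hs2
  | mul y z _ _ hy hz =>
    obtain ⟨a, ha, b, hb, rfl⟩ := hy
    obtain ⟨c, hc, d, hd, rfl⟩ := hz
    exact ⟨a * c + b * d * P k, add_mem (mul_mem ha hc) (mul_mem (mul_mem hb hd) hp),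
      a * d + b * c, add_mem (mul_mem ha hd) (mul_mem hb hc), by linear_combination b * d * hs2⟩

/-- A rational square in the field has even valuation outside the primes adjoined. -/
theorem even_padicValRat (hP : PrimeSeq P) {r : ℕ} (hr : r.Prime) (hne : ∀ i < k, P i ≠ r)
    {q : ℚ} (hq : q ≠ 0) {x : ℝ} (hx : x ∈ sqrtField P k) (h : x ^ 2 = q) :
    Even (padicValRat r q) := by
  induction k generalizing r q x with
  | zero =>
    haveI := Fact.mk hr
    rw [sqrtField_zero, mem_bot] at hx
    obtain ⟨y, rfl⟩ := hx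
    have hy : y ^ 2 = q := by
      rw [eq_ratCast] at h
      exact_mod_cast h
    rw [← hy, padicValRat.pow]
    exact ⟨padicValRat r y, by push_cast; ring⟩
  | succ k ih =>
    haveI := Fact.mk hr
    obtain ⟨a, ha, b, hb, rfl⟩ := exists_coords hx
    have hne' : ∀ i < k, P i ≠ r := fun i hi => hne i (hi.trans (Nat.lt_succ_self k))
    have hs2 := sq_sqrt_natCast (P k)
    have hp0 : (P k : ℚ) ≠ 0 := Nat.cast_ne_zero.2 (hP.prime k).ne_zero
    by_cases hb0 : b = 0
    · exact ih hr hne' hq ha (by rw [← h, hb0]; ring)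
    by_cases ha0 : a = 0
    · have hb2 : b ^ 2 = ((q / P k : ℚ) : ℝ) := by
        push_cast
        rw [eq_div_iff (Nat.cast_ne_zero.2 (hP.prime k).ne_zero), ← h, ha0]
        linear_combination -b ^ 2 * hs2
      have := ih hr hne' (div_ne_zero hq hp0) hb hb2
      rwa [padicValRat.div hq hp0, padicValRat.of_nat, padicValNat.eq_zero_of_not_dvd
        fun hd => hne k (Nat.lt_succ_self k)
          ((Nat.prime_dvd_prime_iff_eq hr (hP.prime k)).1 hd).symm,
        Nat.cast_zero, sub_zero] at this
    exfalso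
    have hs : Real.sqrt (P k : ℝ) = ((q : ℝ) - a ^ 2 - b ^ 2 * P k) / (2 * a * b) := by
      rw [eq_div_iff (mul_ne_zero (mul_ne_zero two_ne_zero ha0) hb0)]
      linear_combination h - b ^ 2 * hs2
    haveI := Fact.mk (hP.prime k)
    have := ih (hP.prime k) (fun i hi e => (hi.ne (hP.injective e))) hp0
      (hs ▸ div_mem (sub_mem (sub_mem (algebraMap_mem _ q) (pow_mem ha 2))
        (mul_mem (pow_mem hb 2) (natCast_mem _ _))) (mul_mem (mul_mem (natCast_mem _ 2) ha) hb))
      (by rw [hs2, Rat.cast_natCast])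
    rw [padicValRat.self (hP.prime k).one_lt] at this
    exact Int.not_even_one this

/-- A square root of a prime is not in the field of the earlier ones. -/
theorem sqrt_notMem (hP : PrimeSeq P) : Real.sqrt (P k) ∉ sqrtField P k := fun hm => by
  haveI := Fact.mk (hP.prime k)
  have := even_padicValRat hP (hP.prime k) (fun i hi e => hi.ne (hP.injective e))
    (q := (P k : ℚ)) (Nat.cast_ne_zero.2 (hP.prime k).ne_zero) hm
    (by rw [sq_sqrt_natCast, Rat.cast_natCast])
  rw [padicValRat.self (hP.prime k).one_lt] at this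
  exact Int.not_even_one this

/-- The coordinates are unique. -/
theorem coords_eq_zero (hP : PrimeSeq P) {a b : ℝ} (ha : a ∈ sqrtField P k)
    (hb : b ∈ sqrtField P k) (h : a + b * Real.sqrt (P k) = 0) : a = 0 ∧ b = 0 := by
  by_cases hb0 : b = 0
  · exact ⟨by simpa [hb0] using h, hb0⟩
  refine absurd ?_ (sqrt_notMem (k := k) hP)
  rw [show Real.sqrt (P k : ℝ) = -a / b by rw [eq_div_iff hb0]; linarith]
  exact div_mem (neg_mem ha) hb

/-- Twice an odd number is not a square in the field. -/
theorem sq_ne_two_mul (hP : PrimeSeq P) {n : ℕ} (hn : Odd n) {x : ℝ} (hx : x ∈ sqrtField P k) :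
    x ^ 2 ≠ 2 * n := fun h => by
  have h2 : ¬ 2 ∣ n := fun hd => Nat.not_even_iff_odd.2 hn (even_iff_two_dvd.2 hd)
  have hn0 : n ≠ 0 := fun e => h2 (e ▸ dvd_zero 2)
  have := even_padicValRat hP Nat.prime_two
    (fun i _ e => by have := hP.odd i; rw [e] at this; exact absurd this (by decide))
    (q := ((2 * n : ℕ) : ℚ)) (by exact_mod_cast mul_ne_zero two_ne_zero hn0) hx
    (by rw [h]; push_cast; rfl)
  rw [padicValRat.of_nat, padicValNat.mul two_ne_zero hn0, padicValNat.self one_lt_two,
    padicValNat.eq_zero_of_not_dvd h2] at this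
  simp at this

/-- The condition on the primes: no product of some of them is congruent. -/
def NoRationalPoint (P : ℕ → ℕ) : Prop :=
  ∀ (S : Finset ℕ) (x y : ℚ), y ^ 2 = x ^ 3 - ((∏ i ∈ S, P i : ℕ) : ℚ) ^ 2 * x → y = 0

/-- The roots of `x³ - n² x`. -/
theorem root_cases {n e : ℝ} (h : 0 = e ^ 3 - n ^ 2 * e) : e = 0 ∨ e = n ∨ e = -n := by
  have h' : e * ((e - n) * (e + n)) = 0 := by linear_combination -h
  rcases mul_eq_zero.1 h' with h1 | h1
  · exact Or.inl h1
  rcases mul_eq_zero.1 h1 with h2 | h2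
  · exact Or.inr (Or.inl (sub_eq_zero.1 h2))
  · exact Or.inr (Or.inr (eq_neg_of_add_eq_zero_left h2))

/-- **No points beyond `y = 0`** over the field of the first `k` square roots, on the curve of any
product of the remaining primes. -/
theorem y_eq_zero (hP : PrimeSeq P) (hN : NoRationalPoint P) (k : ℕ) :
    ∀ S : Finset ℕ, (∀ i ∈ S, k ≤ i) → ∀ x ∈ sqrtField P k, ∀ y ∈ sqrtField P k,
      y ^ 2 = x ^ 3 - ((∏ i ∈ S, P i : ℕ) : ℝ) ^ 2 * x → y = 0 := by
  induction k with
  | zero =>
    intro S _ x hx y hy h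
    rw [sqrtField_zero, mem_bot] at hx hy
    obtain ⟨x, rfl⟩ := hx
    obtain ⟨y, rfl⟩ := hy
    rw [eq_ratCast, eq_ratCast] at h
    rw [eq_ratCast, hN S x y (by exact_mod_cast h), Rat.cast_zero]
  | succ k ih =>
    intro S hS x hx y hy h
    obtain ⟨a, ha, b, hb, rfl⟩ := exists_coords hx
    obtain ⟨c, hc, d, hd, rfl⟩ := exists_coords hy
    set n : ℝ := ((∏ i ∈ S, P i : ℕ) : ℝ) with hn
    set p : ℝ := (P k : ℝ) with hp
    set s := Real.sqrt p
    have hs2 : s ^ 2 = p := sq_sqrt_natCast _
    have hkS : k ∉ S := fun hm => (Nat.lt_succ_self k).not_ge (hS k hm)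
    have hS' : ∀ i ∈ S, k ≤ i := fun i hi => (Nat.le_succ k).trans (hS i hi)
    have hpF : p ∈ sqrtField P k := natCast_mem _ _
    have hnF : n ∈ sqrtField P k := natCast_mem _ _
    have hp0 : 0 < p := Nat.cast_pos.2 (hP.prime k).pos
    have hn0 : 0 < n := Nat.cast_pos.2 (Finset.prod_pos fun i _ => (hP.prime i).pos)
    -- the curve of the twist
    have hT : ∀ u ∈ sqrtField P k, ∀ v ∈ sqrtField P k,
        p * v ^ 2 = u ^ 3 - n ^ 2 * u → v = 0 := by
      intro u hu v hv huv
      have := ih (insert k S) (fun i hi => (Finset.mem_insert.1 hi).elim (fun e => e.ge) (hS' i))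
        (p * u) (mul_mem hpF hu) (p ^ 2 * v) (mul_mem (pow_mem hpF 2) hv) (by
          rw [Finset.prod_insert hkS, Nat.cast_mul, ← hp, ← hn]
          linear_combination p ^ 3 * huv)
      exact (mul_eq_zero.1 this).resolve_left (pow_ne_zero _ hp0.ne')
    -- the coordinates of the equation
    obtain ⟨h0, h1⟩ := coords_eq_zero hP
      (a := c ^ 2 + p * d ^ 2 - (a ^ 3 + 3 * a * b ^ 2 * p - n ^ 2 * a))
      (b := 2 * c * d - (3 * a ^ 2 * b + p * b ^ 3 - n ^ 2 * b))
      (sub_mem (add_mem (pow_mem hc 2) (mul_mem hpF (pow_mem hd 2))) (sub_mem (add_mem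
        (pow_mem ha 3) (mul_mem (mul_mem (mul_mem (natCast_mem _ 3) ha) (pow_mem hb 2)) hpF))
        (mul_mem (pow_mem hnF 2) ha)))
      (sub_mem (mul_mem (mul_mem (natCast_mem _ 2) hc) hd) (sub_mem (add_mem
        (mul_mem (mul_mem (natCast_mem _ 3) (pow_mem ha 2)) hb) (mul_mem hpF (pow_mem hb 3)))
        (mul_mem (pow_mem hnF 2) hb)))
      (by linear_combination h + (3 * a * b ^ 2 + b ^ 3 * s - d ^ 2) * hs2)
    rcases eq_or_ne b 0 with rfl | hb0
    · rcases mul_eq_zero.1 (show c * d = 0 by linear_combination h1 / 2) with rfl | rfl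
      · rw [hT a ha d hd (by linear_combination h0)]
        ring
      · rw [ih S hS' a ha c hc (by linear_combination h0)]
        ring
    -- the line through the point and its conjugate
    set l := d / b
    have hl : d = l * b := (div_mul_cancel₀ _ hb0).symm
    have hlF : l ∈ sqrtField P k := div_mem hd hb
    set m := c / (p * b)
    have hm : c = m * p * b := by simp only [m]; field_simp
    have hmF : m ∈ sqrtField P k := div_mem hc (mul_mem hpF hb)
    set e := l ^ 2 - 2 * a with he'
    set e' := p * m ^ 2 - 2 * a with he''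
    have heF : e ∈ sqrtField P k := sub_mem (pow_mem hlF 2) (mul_mem (natCast_mem _ 2) ha)
    have he'F : e' ∈ sqrtField P k :=
      sub_mem (mul_mem hpF (pow_mem hmF 2)) (mul_mem (natCast_mem _ 2) ha)
    clear_value l m e e'
    rw [hl, hm] at h0 h1
    have h1' : 2 * m * p * l * b - (3 * a ^ 2 + p * b ^ 2 - n ^ 2) = 0 := by
      have : b * (2 * m * p * l * b - (3 * a ^ 2 + p * b ^ 2 - n ^ 2)) = 0 := by
        linear_combination h1
      exact (mul_eq_zero.1 this).resolve_left hb0
    have hz : c + l * (e - a) = 0 := ih S hS' e heF _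
      (add_mem hc (mul_mem hlF (sub_mem heF ha))) (by
        rw [hm, he']; linear_combination h0 + (l ^ 2 - 3 * a) * h1')
    have hz' : d + m * (e' - a) = 0 := hT e' he'F _
      (add_mem hd (mul_mem hmF (sub_mem he'F ha))) (by
        rw [hl, he'']; linear_combination h0 + (p * m ^ 2 - 3 * a) * h1')
    have hroot : 0 = e ^ 3 - n ^ 2 * e := by
      rw [hm] at hz
      rw [he'] at hz ⊢
      linear_combination (-(m * p * b) - l * (l ^ 2 - 3 * a)) * hz + h0 + (l ^ 2 - 3 * a) * h1'
    have hroot' : 0 = e' ^ 3 - n ^ 2 * e' := by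
      rw [hl] at hz'
      rw [he''] at hz' ⊢
      linear_combination (-p * (l * b + m * (p * m ^ 2 - 3 * a))) * hz' + h0 +
        (p * m ^ 2 - 3 * a) * h1'
    rcases eq_or_ne l 0 with hl0 | hl0
    · have hc0 : c = 0 := by simpa [hl0] using hz
      rw [hl, hl0, hc0]
      ring
    have key : (e' - e) * (l ^ 2 - (a - e')) = 0 := by
      have hA : m * p * b = l * (a - e) := by rw [← hm]; linarith
      have hB : l * b = m * (a - e') := by rw [← hl]; linarith
      have : l ^ 2 * (a - e) = p * m ^ 2 * (a - e') := by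
        linear_combination -l * hA + p * m * hB
      have hpm : p * m ^ 2 = l ^ 2 - e + e' := by rw [he', he'']; ring
      rw [hpm] at this
      linear_combination this
    rcases eq_or_ne e' e with hee | hee
    · exfalso
      have hlm : l ^ 2 = p * m ^ 2 := by linarith
      have hm0 : m ≠ 0 := fun h0' => hl0 (pow_eq_zero_iff two_ne_zero |>.1 (by
        rw [hlm, h0']; ring))
      refine sqrt_notMem (k := k) hP ?_
      have hs' : (s * m) ^ 2 = l ^ 2 := by rw [mul_pow, hs2, hlm]
      rcases sq_eq_sq_iff_eq_or_eq_neg.1 hs' with e1 | e1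
      · show s ∈ sqrtField P k
        rw [(eq_div_iff hm0).2 e1]
        exact div_mem hlF hmF
      · show s ∈ sqrtField P k
        rw [(eq_div_iff hm0).2 e1]
        exact div_mem (neg_mem hlF) hmF
    have hl2 := (mul_eq_zero.1 key).resolve_left (sub_ne_zero.2 hee)
    have hA1 : l ^ 2 = -(e + 2 * e') := by linarith
    have hA2 : p * m ^ 2 = -(2 * e + e') := by linarith
    have hl2p : 0 < l ^ 2 := by positivity
    have hm2p : 0 < p * m ^ 2 := by
      have : m ≠ 0 := fun h0' => hl0 (by
        rw [h0', zero_mul] at hz'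
        have hlb : l * b = 0 := by rw [← hl]; linarith
        exact (mul_eq_zero.1 hlb).resolve_right hb0)
      positivity
    have hodd : Odd (∏ i ∈ S, P i) :=
      Finset.prod_induction _ Odd (fun u v => Odd.mul) odd_one fun i _ => hP.odd i
    have hodd' : Odd ((∏ i ∈ S, P i) * P k) := hodd.mul (hP.odd k)
    exfalso
    rcases root_cases hroot with u | u | u <;> rcases root_cases hroot' with v | v | v <;>
      rw [u, v] at hA1 hA2 hee <;>
      first
        | exact hee rfl
        | (clear * - hA1 hA2 hl2p hm2p hn0; linarith)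
        | exact sq_ne_two_mul hP hodd hlF (by rw [← hn]; linarith)
        | exact sq_ne_two_mul hP hodd' (mul_mem hpF hmF)
            (by rw [Nat.cast_mul, ← hn, ← hp]; linear_combination p * hA2)

/-- The field generated by all the square roots. -/
def sqrtFieldAll (P : ℕ → ℕ) : IntermediateField ℚ ℝ :=
  adjoin ℚ (Set.range fun i => Real.sqrt (P i))

theorem sqrtField_le_all (P : ℕ → ℕ) (k : ℕ) : sqrtField P k ≤ sqrtFieldAll P :=
  IntermediateField.adjoin.mono _ _ _ (Set.image_subset_range _ _)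

theorem exists_mem_sqrtField {x : ℝ} (hx : x ∈ sqrtFieldAll P) : ∃ k, x ∈ sqrtField P k := by
  unfold sqrtFieldAll at hx
  induction hx using adjoin_induction with
  | mem y hy =>
    obtain ⟨i, rfl⟩ := hy
    exact ⟨i + 1, sqrt_mem P i⟩
  | algebraMap q => exact ⟨0, algebraMap_mem _ q⟩
  | add y z _ _ hy hz =>
    obtain ⟨i, hi⟩ := hy
    obtain ⟨j, hj⟩ := hz
    exact ⟨max i j, add_mem (sqrtField_mono (le_max_left i j) hi)
      (sqrtField_mono (le_max_right i j) hj)⟩
  | inv y _ hy =>
    obtain ⟨i, hi⟩ := hy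
    exact ⟨i, inv_mem hi⟩
  | mul y z _ _ hy hz =>
    obtain ⟨i, hi⟩ := hy
    obtain ⟨j, hj⟩ := hz
    exact ⟨max i j, mul_mem (sqrtField_mono (le_max_left i j) hi)
      (sqrtField_mono (le_max_right i j) hj)⟩

/-- **The points of `y² = x³ - x`** over the field of all the square roots. -/
theorem y_eq_zero_all (hP : PrimeSeq P) (hN : NoRationalPoint P) {x y : ℝ}
    (hx : x ∈ sqrtFieldAll P) (hy : y ∈ sqrtFieldAll P) (h : y ^ 2 = x ^ 3 - x) : y = 0 := by
  obtain ⟨i, hi⟩ := exists_mem_sqrtField hx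
  obtain ⟨j, hj⟩ := exists_mem_sqrtField hy
  exact y_eq_zero hP hN (max i j) ∅ (fun m hm => absurd hm (Finset.notMem_empty m)) x
    (sqrtField_mono (le_max_left i j) hi) y (sqrtField_mono (le_max_right i j) hj)
    (by simpa using h)

end FA.IskraField
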