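import Fermat.Agent.Iskra.Multiquadratic
import Fermat.Agent.Root.SummaryIskra
import Mathlib.FieldTheory.Minpoly.Field
import Mathlib.FieldTheory.KummerPolynomial
import Mathlib.Order.OrderIsoNat

/-!
# Iskra's primes in an infinite sequence, and the degree of their fields

An infinite sequence of primes `≡ 3 (mod 8)`, each `≡ 1` modulo the earlier ones, has every finite
product among Iskra's numbers; the square roots of the first `k` generate a field of degree `2 ^ k`.
-/

set_option autoImplicit false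
set_option linter.style.haveILetI false

noncomputable section

open Polynomial
open scoped IntermediateField

namespace FA.IskraField

/-- Iskra's primes in an infinite sequence, above every bound. -/
theorem exists_primeSeq (M : ℕ) : ∃ P : ℕ → ℕ, PrimeSeq P ∧ (∀ i, P i % 8 = 3 ∧ M < P i) ∧
    ∀ i j, i < j → IsSquare (P j : ZMod (P i)) := by
  classical
  obtain ⟨P, hP, hr⟩ := exists_seq_of_forall_finset_exists
    (P := fun q : ℕ => q.Prime ∧ q % 8 = 3 ∧ M < q) (r := fun x y : ℕ => x < y ∧ y ≡ 1 [MOD x])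
    fun t ht => by
      set m := ∏ q ∈ t, q
      have hm0 : m ≠ 0 := Finset.prod_ne_zero_iff.2 fun q hq => (ht q hq).1.ne_zero
      have hm : Nat.Coprime 8 m := Nat.Coprime.prod_right fun q hq =>
        (((ht q hq).1.coprime_iff_not_dvd).2 fun hd => by
          have h8 := (ht q hq).2.1
          have := ((Nat.prime_dvd_prime_iff_eq (ht q hq).1 Nat.prime_two).1
            ((ht q hq).1.dvd_of_dvd_pow (m := 2) (n := 3) hd))
          omega).symm
      obtain ⟨r, hr8, hrm⟩ := Nat.chineseRemainder hm 3 1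
      have hcop : r.Coprime (8 * m) := by
        refine Nat.Coprime.mul_right ?_ ?_
        · rw [Nat.Coprime, hr8.gcd_eq]; decide
        · rw [Nat.Coprime, hrm.gcd_eq, Nat.gcd_one_left]
      obtain ⟨p, hpgt, hp, hpr⟩ := Nat.forall_exists_prime_gt_and_modEq (M + ∑ q ∈ t, q)
        (q := 8 * m) (mul_ne_zero (by norm_num) hm0) hcop
      refine ⟨p, ⟨hp, by simpa [Nat.ModEq] using (hpr.of_mul_right m).trans hr8,
        (Nat.le_add_right M _).trans_lt hpgt⟩, fun q hq => ⟨?_, ?_⟩⟩
      · exact ((Finset.single_le_sum (fun j _ => Nat.zero_le j) hq).trans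
          (Nat.le_add_left _ M)).trans_lt hpgt
      · exact ((hpr.of_mul_left 8).trans hrm).of_dvd (Finset.dvd_prod_of_mem (fun q => q) hq)
  refine ⟨P, ⟨fun i => (hP i).1, fun i => Nat.odd_iff.2 (by have := (hP i).2.1; omega), ?_⟩,
    fun i => (hP i).2, fun i j hij => ?_⟩
  · exact (strictMono_nat_of_lt_succ fun n => (hr n (n + 1) n.lt_succ_self).1).injective
  · rw [(ZMod.natCast_eq_natCast_iff _ _ _).2 (hr i j hij).2, Nat.cast_one]
    exact IsSquare.one

/-- A point with `y ≠ 0` gives a right triangle of area `n`. -/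
theorem congruent_of_point {n : ℕ} (hn : 0 < n) {x y : ℚ}
    (h : y ^ 2 = x ^ 3 - (n : ℚ) ^ 2 * x) (hy : y ≠ 0) :
    ∃ a b c : ℚ, 0 < a ∧ 0 < b ∧ 0 < c ∧ a ^ 2 + b ^ 2 = c ^ 2 ∧ a * b / 2 = n := by
  have hn' : (0 : ℚ) < n := Nat.cast_pos.2 hn
  have hx : x ≠ 0 := fun e => hy (pow_eq_zero_iff two_ne_zero |>.1 (by rw [h, e]; ring))
  have hd : x ^ 2 - (n : ℚ) ^ 2 ≠ 0 := fun e =>
    hy (pow_eq_zero_iff two_ne_zero |>.1 (by rw [h]; linear_combination x * e))
  refine ⟨|(x ^ 2 - (n : ℚ) ^ 2) / y|, |2 * n * x / y|, |(x ^ 2 + (n : ℚ) ^ 2) / y|,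
    abs_pos.2 (div_ne_zero hd hy), abs_pos.2 (div_ne_zero (by positivity) hy),
    abs_pos.2 (div_ne_zero (by positivity) hy), ?_, ?_⟩
  · rw [sq_abs, sq_abs, sq_abs]
    field_simp
    ring
  · rw [← abs_mul, div_mul_div_comm, show (x ^ 2 - (n : ℚ) ^ 2) * (2 * n * x) / (y * y) = 2 * n by
      rw [div_eq_iff (mul_ne_zero hy hy)]; linear_combination -2 * (n : ℚ) * h,
      abs_of_nonneg (by positivity)]
    ring

/-- No product of the primes of such a sequence is congruent. -/
theorem noRationalPoint {P : ℕ → ℕ} (hP : PrimeSeq P) (h8 : ∀ i, P i % 8 = 3)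
    (hsq : ∀ i j, i < j → IsSquare (P j : ZMod (P i))) : NoRationalPoint P := by
  intro S x y h
  by_contra hy
  set e := S.orderEmbOfFin rfl
  have hprod : ∏ i, P (e i) = ∏ i ∈ S, P i := by
    conv_rhs => rw [← Finset.map_orderEmbOfFin_univ S rfl, Finset.prod_map]
    rfl
  refine FA.Summary.iskra (fun i => P (e i)) (fun i => hP.prime _) (fun i => h8 _)
    (hP.injective.comp e.injective) (fun i j hij => hsq _ _ (e.strictMono hij)) ?_
  rw [hprod]
  exact congruent_of_point (Finset.prod_pos fun i _ => (hP.prime i).pos) h hy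

/-- The next field is generated over the previous one by a square root. -/
theorem sqrtField_succ (P : ℕ → ℕ) (k : ℕ) :
    sqrtField P (k + 1) =
      IntermediateField.restrictScalars ℚ ((sqrtField P k)⟮Real.sqrt (P k)⟯) := by
  refine Eq.trans ?_ (IntermediateField.adjoin_adjoin_left _ _ _).symm
  rw [sqrtField]
  congr 1
  rw [← Set.image_singleton (f := fun i => Real.sqrt (P i)), ← Set.image_union]
  congr 1
  ext i
  simp only [Set.mem_Iio, Set.mem_union, Set.mem_singleton_iff]
  omega

/-- **The degree**. -/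
theorem finrank_sqrtField {P : ℕ → ℕ} (hP : PrimeSeq P) (k : ℕ) :
    Module.finrank ℚ (sqrtField P k) = 2 ^ k := by
  induction k with
  | zero => rw [sqrtField_zero, IntermediateField.finrank_bot, pow_zero]
  | succ k ih =>
    set F := sqrtField P k
    set s := Real.sqrt (P k)
    have hirr : Irreducible (X ^ 2 - C ((P k : ℕ) : F) : F[X]) := by
      refine X_pow_sub_C_irreducible_of_prime Nat.prime_two fun b hb => sqrt_notMem (k := k) hP ?_
      have hb' : (b : ℝ) ^ 2 = s ^ 2 := by
        rw [sq_sqrt_natCast, ← SubmonoidClass.coe_pow, hb]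
        simp
      rcases sq_eq_sq_iff_eq_or_eq_neg.1 hb' with e | e
      · show s ∈ F
        exact e ▸ b.2
      · show s ∈ F
        rw [show s = -(b : ℝ) by rw [e, neg_neg]]
        exact neg_mem b.2
    have hroot : aeval s (X ^ 2 - C ((P k : ℕ) : F) : F[X]) = 0 := by
      simp [s]
    have hmin := minpoly.eq_of_irreducible_of_monic hirr hroot (monic_X_pow_sub_C _ two_ne_zero)
    have hint : IsIntegral F s := ⟨_, monic_X_pow_sub_C _ two_ne_zero, hroot⟩
    rw [sqrtField_succ, pow_succ, ← ih]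
    show Module.finrank ℚ F⟮s⟯ = _
    rw [← Module.finrank_mul_finrank ℚ F F⟮s⟯, IntermediateField.adjoin.finrank hint, ← hmin,
      natDegree_X_pow_sub_C]

end FA.IskraField
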