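import Fermat.Agent.Iskra.Classify
import Fermat.Agent.CongruentNumber.RankOne

/-!
# The descent on `y² = x³ - n² x` for Iskra's `n`

A translate by torsion has `x > n` and an even exponent of `2` in `x - n`; then `x` and `x - n` are
squares, so every point is twice a point up to torsion and the rank is zero.
-/

set_option autoImplicit false
set_option linter.style.haveILetI false

noncomputable section

open WeierstrassCurve
open FA.CongruentNumber

namespace FA.Iskra

variable {k : ℕ} {P : Fin k → ℕ}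

/-- A point with `x > n` and even exponent of `2` in `x - n` has square classes. -/
theorem isSquare_classes (hP : Primes P) {x y : ℚ}
    (e : y ^ 2 = x ^ 3 - ((∏ i, P i : ℕ) : ℚ) ^ 2 * x) (hx : ((∏ i, P i : ℕ) : ℚ) < x)
    (h2 : Even (padicValRat 2 (x - ((∏ i, P i : ℕ) : ℚ)))) :
    IsSquare x ∧ IsSquare (x - ((∏ i, P i : ℕ) : ℚ)) := by
  set N : ℕ := ∏ i, P i
  haveI := Fact.mk Nat.prime_two
  have hN : (0 : ℚ) ≤ N := Nat.cast_nonneg N
  have hx0 : 0 < x := lt_of_le_of_lt hN hx
  set d : ℤ := (x.den : ℤ) with hd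
  have hdQ : (0 : ℚ) < (d : ℚ) := by rw [hd]; exact_mod_cast x.den_pos
  have hnd : (x.num : ℚ) = x * (d : ℚ) := by exact_mod_cast (Rat.mul_den_eq_num x).symm
  -- the denominator is a square
  obtain ⟨W, hW⟩ : IsSquare (d * (x.num * (x.num ^ 2 - (N : ℤ) ^ 2 * d ^ 2))) := by
    refine Rat.isSquare_intCast_iff.1 ⟨y * (d : ℚ) ^ 2, ?_⟩
    push_cast
    rw [hnd]
    linear_combination -(d : ℚ) ^ 4 * e
  have hco : IsCoprime x.num d := by
    rw [Int.isCoprime_iff_gcd_eq_one, Int.gcd, Int.natAbs_natCast]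
    exact x.reduced
  have hc : IsCoprime d (x.num * (x.num ^ 2 - (N : ℤ) ^ 2 * d ^ 2)) := by
    refine hco.symm.mul_right ?_
    have := (hco.pow_left (m := 2)).symm.add_mul_left_right (-(N : ℤ) ^ 2 * d)
    rwa [show x.num ^ 2 + d * (-(N : ℤ) ^ 2 * d) = x.num ^ 2 - (N : ℤ) ^ 2 * d ^ 2 by ring]
      at this
  obtain ⟨r, hr⟩ := sq_of_coprime_pos hc (by rw [hd]; exact_mod_cast x.den_pos) (hW.trans (sq W).symm)
  have hr0 : (r : ℚ) ≠ 0 := fun h => hdQ.ne' (by rw [hr]; push_cast; rw [h]; ring)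
  -- the three factors
  have hB : (0 : ℤ) < x.num - N * d := by
    have : (0 : ℚ) < ((x.num - N * d : ℤ) : ℚ) := by
      push_cast
      rw [hnd, ← sub_mul]
      exact mul_pos (sub_pos.2 hx) hdQ
    exact_mod_cast this
  obtain ⟨A₀, hA₀⟩ := Int.eq_ofNat_of_zero_le (Rat.num_pos.2 hx0).le
  obtain ⟨B₀, hB₀⟩ := Int.eq_ofNat_of_zero_le hB.le
  have hC : (0 : ℤ) < x.num + N * d := by
    have : (0 : ℤ) < d := by rw [hd]; exact_mod_cast x.den_pos
    have := Rat.num_pos.2 hx0
    positivity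
  obtain ⟨C₀, hC₀⟩ := Int.eq_ofNat_of_zero_le hC.le
  obtain ⟨a, u, hau, ha⟩ := Nat.sq_mul_squarefree A₀
  obtain ⟨b, v, hbv, hb⟩ := Nat.sq_mul_squarefree B₀
  obtain ⟨c, w, hcw, hcs⟩ := Nat.sq_mul_squarefree C₀
  have hau' : x.num = (a : ℤ) * (u : ℤ) ^ 2 := by rw [hA₀, ← hau]; push_cast; ring
  have hbv' : x.num - N * d = (b : ℤ) * (v : ℤ) ^ 2 := by rw [hB₀, ← hbv]; push_cast; ring
  have hcw' : x.num + N * d = (c : ℤ) * (w : ℤ) ^ 2 := by rw [hC₀, ← hcw]; push_cast; ring
  have hu0 : u ≠ 0 := by rintro rfl; simp [(Rat.num_pos.2 hx0).ne'] at hau'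
  have hv0 : v ≠ 0 := by rintro rfl; simp [hB.ne'] at hbv'
  have hw0 : w ≠ 0 := by rintro rfl; simp [hC.ne'] at hcw'
  have habc : IsSquare (a * b * c) := by
    have hr' : r ≠ 0 := fun h => hr0 (by simp [h])
    have hne : (r : ℚ) * u * v * w ≠ 0 := by
      simp [hr', hu0, hv0, hw0]
    have hsq : IsSquare ((a * b * c : ℕ) : ℚ) := by
      refine ⟨(W : ℚ) / ((r : ℚ) * u * v * w), ?_⟩
      rw [div_mul_div_comm, eq_div_iff (mul_ne_zero hne hne)]
      rw [show x.num * (x.num ^ 2 - (N : ℤ) ^ 2 * d ^ 2) =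
        x.num * (x.num - N * d) * (x.num + N * d) by ring, hbv', hcw', hau', hr] at hW
      have := congrArg (Int.cast : ℤ → ℚ) hW
      push_cast at this ⊢
      linear_combination this
    exact Rat.isSquare_natCast_iff.1 hsq
  have hxv : x - N = ((b : ℚ) * (v : ℚ) ^ 2) / (r : ℚ) ^ 2 := by
    rw [eq_div_iff (pow_ne_zero 2 hr0)]
    have := congrArg (Int.cast : ℤ → ℚ) hbv'
    push_cast at this
    rw [hnd, hr] at this
    push_cast at this
    linear_combination this
  have hb2 : ¬ 2 ∣ b := by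
    rintro ⟨b', rfl⟩
    have hb' : ¬ 2 ∣ b' := fun h => two_ne_zero
      (absurd (hb 2 (mul_dvd_mul_left 2 h)) (by simp))
    have hb'0 : b' ≠ 0 := by rintro rfl; exact hb' (dvd_zero 2)
    rw [hxv, padicValRat.div (mul_ne_zero (by simp [hb'0]) (by simp [hv0])) (pow_ne_zero 2 hr0),
      padicValRat.mul (by simp [hb'0]) (by simp [hv0]), padicValRat.pow, padicValRat.pow,
      padicValRat.of_nat, padicValNat.mul two_ne_zero hb'0, padicValNat.self one_lt_two,
      padicValNat.eq_zero_of_not_dvd hb'] at h2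
    push_cast at h2
    rw [Int.even_iff] at h2
    omega
  obtain ⟨rfl, rfl⟩ := eq_one hP ha hb hcs habc hb2 (u := u) (v := v) (w := w) (e := r)
    (by rw [← hau', ← hbv', hr]) (by rw [← hau', ← hcw', hr])
    (by rw [← hau']; exact (IsCoprime.pow_right_iff two_pos).1 (hr ▸ hco))
  refine ⟨⟨(u : ℚ) / r, ?_⟩, ⟨(v : ℚ) / r, ?_⟩⟩
  · rw [div_mul_div_comm, eq_div_iff (mul_ne_zero hr0 hr0)]
    have := congrArg (Int.cast : ℤ → ℚ) hau'
    push_cast at this
    rw [hnd, hr] at this
    push_cast at this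
    linear_combination this
  · rw [hxv]
    push_cast
    ring

/-- **Every point is twice a point up to torsion.** -/
theorem halved (hP : Primes P) {N : ℕ} (hNP : ∏ i, P i = N)
    (Q : (congCurve N).toAffine.Point) : Halved Q := by
  have hn : N ≠ 0 := hNP ▸ hP.squarefree_prod.ne_zero
  have hN : (0 : ℚ) < N := Nat.cast_pos.2 (Nat.pos_of_ne_zero hn)
  haveI := Fact.mk Nat.prime_two
  let T : (congCurve N).toAffine.Point := .some 0 0 (nonsingular_congCurve hn (by ring))
  let U : (congCurve N).toAffine.Point := .some (N : ℚ) 0 (nonsingular_congCurve hn (by ring))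
  have hT : IsOfFinAddOrder T := isOfFinAddOrder_of_y_eq_zero rfl
  have hU : IsOfFinAddOrder U := isOfFinAddOrder_of_y_eq_zero rfl
  -- the classes are squares
  have step2 : ∀ x y h, (N : ℚ) < x → Halved (Affine.Point.some x y h :
      (congCurve N).toAffine.Point) := by
    have base : ∀ x y h, (N : ℚ) < x → Even (padicValRat 2 (x - N)) →
        Halved (Affine.Point.some x y h : (congCurve N).toAffine.Point) := by
      intro x y h hx h2
      by_cases hy : y = 0
      · exact halved_of_torsion (isOfFinAddOrder_of_y_eq_zero hy)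
      obtain ⟨h1, h1'⟩ := isSquare_classes hP (x := x) (y := y) (by rw [hNP]; exact equation_congCurve h)
        (by rw [hNP]; exact hx) (by rw [hNP]; exact h2)
      obtain ⟨R, hR⟩ := exists_half hn h hy h1 (hNP ▸ h1')
      exact ⟨R, by rw [hR, sub_self]; exact IsOfFinAddOrder.zero⟩
    intro x y h hx
    by_cases h2 : Even (padicValRat 2 (x - N))
    · exact base x y h hx h2
    refine halved_of_add hU ?_
    obtain ⟨x', y', h', hadd, hxv⟩ := exists_add h
      (nonsingular_congCurve hn (x := (N : ℚ)) (y := 0) (by ring)) hx.ne'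
    rw [hadd]
    have hd : x - N ≠ 0 := (sub_pos.2 hx).ne'
    have hx' : x' - N = 2 * (N : ℚ) ^ 2 / (x - N) := by
      rw [hxv, sub_zero, div_pow]
      field_simp
      linear_combination equation_congCurve h
    refine base x' y' h'
      (sub_pos.1 (by rw [hx']; exact div_pos (by positivity) (sub_pos.2 hx))) ?_
    rw [hx', padicValRat.div (by positivity) hd, padicValRat.mul two_ne_zero (by positivity),
      padicValRat.pow, show (2 : ℚ) = ((2 : ℕ) : ℚ) by norm_num, padicValRat.of_nat,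
      padicValRat.of_nat, padicValNat.self one_lt_two,
      padicValNat.eq_zero_of_not_dvd (n := N) (fun h => (Nat.not_even_iff_odd.2 (hNP ▸ hP.odd_prod))
        (even_iff_two_dvd.2 h))]
    rw [Int.not_even_iff] at h2
    rw [Int.even_iff]
    omega
  rcases Q with _ | ⟨x, y, h⟩
  · exact halved_of_torsion IsOfFinAddOrder.zero
  by_cases hy : y = 0
  · exact halved_of_torsion (isOfFinAddOrder_of_y_eq_zero hy)
  have e := equation_congCurve h
  have hy2 : 0 < y ^ 2 := by positivity
  by_cases hx : 0 ≤ x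
  · refine step2 x y h ?_
    by_contra hle
    nlinarith [mul_le_mul (not_lt.1 hle) (not_lt.1 hle) hx hN.le]
  have hx0 : x < 0 := not_le.1 hx
  refine halved_of_add hT ?_
  obtain ⟨x', y', h', hadd, hxv⟩ := exists_add h
    (nonsingular_congCurve hn (x := 0) (y := 0) (by ring)) hx0.ne
  rw [hadd]
  refine step2 x' y' h' ?_
  have hx' : x' = (N : ℚ) ^ 2 / -x := by
    have hxne : x ≠ 0 := hx0.ne
    rw [hxv, sub_zero, sub_zero, sub_zero, div_pow]
    field_simp
    linear_combination e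
  rw [hx', lt_div_iff₀ (neg_pos.2 hx0)]
  have hlt : -x < N := by
    by_contra hle
    nlinarith [mul_le_mul (not_lt.1 hle) (not_lt.1 hle) hN.le (neg_nonneg.2 hx0.le)]
  nlinarith

/-- **The point group.** -/
theorem point_equiv (hP : Primes P) :
    Nonempty ((congCurve (∏ i, P i)).toAffine.Point ≃+ ZMod 2 × ZMod 2) := by
  set N : ℕ := ∏ i, P i
  have hn : N ≠ 0 := hP.squarefree_prod.ne_zero
  haveI := isElliptic_congCurve hn
  haveI := FA.MordellWeil.mordell (congCurve N)
  obtain ⟨r, ⟨e⟩⟩ := FA.MordellWeil.exists_equiv_torsion_prod (congCurve N).toAffine.Point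
  obtain ⟨-, ⟨f⟩⟩ := torsion_congCurve hn
  obtain rfl : r = 0 := by
    by_contra hr
    set i : Fin r := ⟨0, Nat.pos_of_ne_zero hr⟩
    obtain ⟨R, hR⟩ := halved hP rfl (e.symm (0, Pi.single i 1))
    obtain ⟨m, hm, hm0⟩ := isOfFinAddOrder_iff_nsmul_eq_zero.mp
      (((AddMonoidHom.snd _ _).comp e.toAddMonoidHom).isOfFinAddOrder hR)
    have := congrFun hm0 i
    simp [hm.ne', map_nsmul] at this
    omega
  exact ⟨(e.trans (AddEquiv.prodUnique (M := AddCommGroup.torsion (congCurve N).toAffine.Point)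
    (N := Fin 0 → ℤ))).trans f⟩

end FA.Iskra

end
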